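import Fermat.Agent.LLp.Local.Points

/-!
# Normalising a rational function with residual `p`-th powers

If both values of a rational function are divisible by `p` and both of its residual functions are
`p`-th powers, a rational `p`-th power brings both reductions to one.
-/

set_option autoImplicit false

noncomputable section

open AlgebraicCurve Fermat.Agent.RED

namespace Fermat.Agent.LLp

variable {L k : Type*} [Field L] [Field k] {A : ValuationSubring L} {π : A →+* k}
  {F C : Type*} [Field F] [Algebra L F] [Field C] [Algebra k C] {D : BAD.BadBase π F C}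
  {u : F} {ubar : C} {d : ℕ} [IsAlgClosed L] [IsAlgClosed k] [FF.IsFunctionField L F]
  {R : RatField D} {h : BAD.Chart D u ubar d}

theorem exists_pow_redOne (hR : R.RatChart h) {x : Fin 2 → Place k C}
    (hx : ∀ b, IsSmoothPt h (b, x b)) {p : ℕ} (hp : p ≠ 0) {q : F} (hq : q ∈ R.FK) (hq0 : q ≠ 0)
    (hres : ∀ b, ∃ (m : ℤ) (e : C), R.HasOrd b q (p * m) ∧ R.lred b q (p * m) = e ^ p) :
    ∃ G ∈ R.FK, G ≠ 0 ∧ q * G ^ p ∈ D.O ∧ ∀ b, D.red b (q * G ^ p) = 1 := by
  classical
  choose m e hm he using hres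
  obtain ⟨W, hW, -, hWn⟩ := exists_scaled_free hR (hx 0) (fun b => -m b)
  set w : Fin 2 → C := fun b => R.lred b W (-m b) with hw
  have hw0 : ∀ b, w b ≠ 0 := fun b => (hWn b).2
  set v : Fin 2 → C := fun b => e b * w b with hv
  have hlift : ∀ b : Fin 2, ∃ a ∈ R.FK, a ∈ D.O ∧ D.red b a = (v b)⁻¹ ∧
      ∀ j, j ≠ b → D.red j a = 1 := by
    intro b
    have hne : (1 - b : Fin 2) ≠ b := by fin_cases b <;> decide
    obtain ⟨a, haK, haO, ha, -⟩ := exists_lift_regular hR (hx (1 - b)).1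
      (z := ((1 - b : Fin 2), x (1 - b))) (c := fun j => if j = b then (v b)⁻¹ else 1)
      (fun y hy hr => by rw [(hx (1 - b)).2 y hy hr]; simp [hne, one_mem])
      (fun y hy hr => by rw [(hx (1 - b)).2 y hy hr])
    refine ⟨a, haK, haO, ?_, fun j hj => ?_⟩
    · rw [← D.red2_apply, ha]; simp
    · rw [← D.red2_apply, ha]; simp [hj]
  choose a haK haO hab haj using hlift
  have ha : ∀ b, D.red b (a 0 * a 1) = (v b)⁻¹ := fun b => by
    rw [D.red_mul (D.mem_of_mem_O (haO 0) b) (D.mem_of_mem_O (haO 1) b)]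
    fin_cases b
    · show D.red 0 (a 0) * D.red 0 (a 1) = _
      rw [hab 0, haj 1 0 (by decide), mul_one]; rfl
    · show D.red 1 (a 0) * D.red 1 (a 1) = _
      rw [haj 0 1 (by decide), hab 1, one_mul]; rfl
  have hv0 : ∀ b, v b ≠ 0 := fun b => by
    refine mul_ne_zero (fun h0 => ?_) (hw0 b)
    exact (hm b).2 ((he b).trans (by rw [h0, zero_pow hp]))
  have haO' : a 0 * a 1 ∈ D.O := mul_mem (haO 0) (haO 1)
  have ha0 : ∀ b, D.red b (a 0 * a 1) ≠ 0 := fun b => by rw [ha]; exact inv_ne_zero (hv0 b)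
  set G := W * (a 0 * a 1) with hG
  have key : ∀ b, R.HasOrd b (q * G ^ p) 0 ∧ R.lred b (q * G ^ p) 0 = 1 := fun b => by
    obtain ⟨h1, h2⟩ := (hWn b).mul (RatField.hasOrd_of_mem_O R haO' ha0 b)
    obtain ⟨h3, h4⟩ := h1.pow p
    obtain ⟨h5, h6⟩ := (hm b).mul h3
    have hz : (p : ℤ) * m b + (p : ℤ) * (-m b + 0) = 0 := by ring
    rw [hz] at h5 h6
    refine ⟨h5, ?_⟩
    rw [h6, he, h4, h2, RatField.lred_zero, ha, ← mul_pow, ← mul_assoc]
    show (v b * (v b)⁻¹) ^ p = 1
    rw [mul_inv_cancel₀ (hv0 b), one_pow]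
  refine ⟨G, mul_mem hW (mul_mem (haK 0) (haK 1)), ?_,
    D.mem_O.mpr fun b => (RatField.hasOrd_zero_iff.mp (key b).1).1, fun b => by
      rw [← R.lred_zero]; exact (key b).2⟩
  exact mul_ne_zero (hWn 0).ne_zero fun h0 => ha0 0 (by rw [h0, D.red_zero])

end Fermat.Agent.LLp
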