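import Fermat.Agent.LLp.Inst.Thick
import Fermat.Agent.LLp.Local.ResidualTame
import Fermat.Agent.LLp.Core.Normalise
import Fermat.Agent.LLp.CoreSeries
import Fermat.Agent.LL.Mazur.RatCharts
import Fermat.Agent.BAD.Ordinary.ResPart

/-!
# Residual modularity from a Kummer plane killed by both pushforwards

`zP` and `zQ` are points of `J₀(M p)` killed by `p` with the Galois action of a unit Kummer plane,
`zQ` with power residues and `zP` without. The rational class function of `zP` then has residual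
orders divisible by `p` without being residually a `p`-th power.
-/

set_option autoImplicit false
set_option maxHeartbeats 1000000
set_option synthInstance.maxHeartbeats 200000
set_option linter.unusedSectionVars false
set_option linter.style.haveILetI false

noncomputable section

open AlgebraicCurve ModularCurve IsLocalRing
open Fermat.Agent.Galois (Qbar GalQ)

namespace Fermat.Agent.LLp

variable {M p : ℕ} [NeZero M] [NeZero p] (hp : p.Prime) (hpM : ¬ p ∣ M)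
  {A : ValuationSubring Qbar} (hA : A.LiesOverPrime p)

local notation "MP" => M * p
local notation "galA" => arithmeticGalois (L := Qbar) (modularFunctionFieldFull (M * p))

/-- The class functions of a class with power residues have power residues. -/
theorem redIsPow_of_hasPowRes {z : JZero MP} {f : modularFunctionFieldBar MP}
    (hf : IsClassFun p z f) (hz : (BAD.Modular.curve hp hpM hA).HasPowRes p z) :
    (BAD.Modular.curve hp hpM hA).RedIsPow p f := by
  obtain ⟨Z, f', hZ, hf', hord, hred⟩ := hz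
  obtain ⟨g, hg, rfl⟩ := IsClassFun.unique hp.ne_zero (P := z) (f := f') (f' := f)
    ⟨hf', Z, hZ, fun v => (hord v).symm⟩ hf
  set D := BAD.Modular.curve hp hpM hA
  refine D.redIsPow_of_exists fun i => ?_
  obtain ⟨c, a, r, hc, hr, he⟩ := D.exists_scale_pow hf' hred i
  obtain ⟨d, hd, hdr⟩ := D.scale i g hg
  rw [← D.red_of_mem hd] at hdr
  have e : (c * d ^ p) • (f' * g ^ p) = (c • f') * (d • g) ^ p := by
    rw [_root_.smul_pow, smul_mul_smul_comm]
  refine ⟨c * d ^ p, a, r * D.red i (d • g), e ▸ mul_mem hc (pow_mem hd p), ?_, ?_⟩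
  · rw [e, D.red_mul hc (pow_mem hd p), D.red_pow hd]
    exact mul_ne_zero hr (pow_ne_zero _ hdr)
  · rw [e, D.red_mul hc (pow_mem hd p), D.red_pow hd, he, mul_pow, smul_mul_assoc]

/-- A class without power residues has a branch where no scaled reduction is a `p`-th power. -/
theorem exists_branch_not_pow {z : JZero MP} {f : modularFunctionFieldBar MP}
    (hf : IsClassFun p z f) (hz : ¬ (BAD.Modular.curve hp hpM hA).HasPowRes p z)
    (R : RatField (BAD.Modular.curve hp hpM hA).toBadBase) :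
    ∃ i, ∀ n, R.HasOrd i f n → ∀ b, b ^ p ≠ R.lred i f n := by
  by_contra! hall
  obtain ⟨hf0, Z, hZ, hord⟩ := hf
  refine hz ⟨Z, f, hZ, hf0, fun v => (hord v).symm,
    (BAD.Modular.curve hp hpM hA).redIsPow_of_exists fun i => ?_⟩
  obtain ⟨n, hn, b, hb⟩ := hall i
  exact ⟨(R.ϖ ^ n)⁻¹, 1, b, hn.1, hn.2, hb.symm.trans (one_smul _ _).symm⟩

theorem fieldLead_ne_zero {x : modularFunctionFieldBar MP} (hx : x ≠ 0) :
    fieldLead MP x ≠ 0 :=
  fun h => hx (Subtype.ext (HahnSeries.leadingCoeff_eq_zero.mp h))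

/-- The leading coefficients of a rational eigen class function at both cusps are rational
`p`-th powers. -/
theorem exists_roots {H : Subgroup GalQ}
    (R : RatField (BAD.Modular.curve hp hpM hA).toBadBase)
    (hR : R.gal = H.map galA) {R₁ : RatField (BAD.Modular.curve hp hpM hA).toBadBase}
    (K : Cusps (BAD.Modular.curve hp hpM hA) R₁)
    (hK : ∀ i f, K.lead i f = (BAD.Modular.emb M hp hpM i f).leadingCoeff)
    {ℓ : ℕ} [NeZero ℓ] (hℓ : ℓ.Prime) (hℓ2 : ℓ ≠ 2) (hℓN : ¬ ℓ ∣ MP) {a : ℤ}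
    (hd : ¬ (p : ℤ) ∣ (ℓ : ℤ) + 1 - a) {z : JZero MP} {f : modularFunctionFieldBar MP}
    (hf : IsClassFun p z f) (hlead : (f : LaurentSeries Qbar).leadingCoeff = 1)
    (hfix : ∀ s ∈ H, arithmeticRingAut (modularFunctionFieldFull MP) s f = f)
    (hz : heckeOperatorBar MP ⟨ℓ, hℓ⟩ z = a • z) (i : Fin 2) :
    ∃ r : Qbar, algebraMap Qbar (modularFunctionFieldBar MP) r ∈ R.FK ∧ K.lead i f = r ^ p := by
  revert i
  rw [Fin.forall_fin_two]
  refine ⟨⟨1, by rw [map_one]; exact one_mem _, ?_⟩, ?_⟩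
  · rw [hK, BAD.Modular.emb_zero_apply, hlead, one_pow]
  have hw : IsSwap Qbar M p (LL.Mazur.wField hp hpM) :=
    ⟨LL.Mazur.wField_alpha hp hpM, LL.Mazur.wField_beta hp hpM⟩
  obtain ⟨r, -, hrfix, hr⟩ :=
    exists_lead_root hp hpM hw H hf hlead hfix hℓ hℓ2 hℓN hz hd
  refine ⟨r, (R.mem_iff _).mpr fun τ hτ => ?_, by rw [hK, LL.Mazur.emb_one_eq, hr]⟩
  rw [hR] at hτ
  obtain ⟨s, hs, rfl⟩ := Subgroup.mem_map.mp hτ
  rw [SemilinearAut.smul_algebraMap]
  exact congrArg _ (hrfix s hs)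

theorem isResiduallyModularOfLevel_of_kummer (h29 : CondLevel.ResidualAttachment)
    (W : WeierstrassCurve ℤ) (hΔ : W.Δ ≠ 0) [Fact p.Prime] (hp2 : p ≠ 2)
    (hq3 : p = 3 → ∃ q : ℕ, q.Prime ∧ q ∣ M ∧ q % 3 = 2) (S : Finset ℕ) {zP zQ : JZero MP}
    (hzP : (p : ℤ) • zP = 0) (hzQ : (p : ℤ) • zQ = 0)
    (hecke : ∀ z : JZero MP, z = zP ∨ z = zQ → ∀ ℓ : Nat.Primes, (ℓ : ℕ) ∉ S →
      heckeOperatorBar MP ℓ z = W.apOfModel (ℓ : ℕ) • z)
    (hnonEis : ∃ ℓ : ℕ, ℓ.Prime ∧ ℓ ≠ 2 ∧ ℓ ∉ S ∧ ¬ ℓ ∣ MP ∧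
      ¬ (p : ℤ) ∣ (ℓ : ℤ) + 1 - W.apOfModel ℓ)
    {ζ η : Qbar} (hζ : IsPrimitiveRoot ζ p) (hη1 : A.valuation η = 1)
    (hη : ∀ σ ∈ A.inertiaSubgroupIn ℚ, σ (η ^ p) = η ^ p)
    (hP1 : ∀ σ ∈ wildGrp A ζ η, σ • zP = zP) (hQ1 : ∀ σ ∈ tameGrp A ζ, σ • zQ = zQ)
    (hσP : ∀ σ ∈ tameGrp A ζ, ∃ c : ℕ, σ • zP = zP + c • zQ)
    (hresQ : (BAD.Modular.curve hp hpM hA).HasPowRes p zQ)
    (hresP : ¬ (BAD.Modular.curve hp hpM hA).HasPowRes p zP) :
    W.IsResiduallyModularOfLevel p M := by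
  classical
  haveI := MF.Coeff.isFunctionField_laurentBaseChange Qbar (M * p)
  haveI := Galois.place_residueField_isAlgClosed A
  haveI := Galois.place_charP_residueField hA hp
  haveI : FF.IsFunctionField (ResidueField A) (modularFunctionFieldFullC (ResidueField A) M) :=
    RED.isFunctionField_special (k := ResidueField A) (N := M)
      (RED.natCast_residue_ne_zero hp hpM hA)
  set D := BAD.Modular.curve hp hpM hA with hD
  obtain ⟨ℓ, hℓ, hℓ2, hℓS, hℓN, hℓd⟩ := hnonEis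
  haveI : NeZero ℓ := ⟨hℓ.ne_zero⟩
  obtain ⟨Q₁, hϖ₁, hQ₁⟩ := exists_tameConsts hA hζ
  set R₁ := LL.Mazur.ratField hp hpM hA (H := tameGrp A ζ) inf_le_left Q₁ hQ₁ with hR₁
  have hfin : R₁.RatChart D.chartFin := LL.Mazur.ratChart_fin hp hpM hA inf_le_left Q₁ hQ₁
  have hinf : R₁.RatChart D.chartInf := LL.Mazur.ratChart_inf hp hpM hA inf_le_left Q₁ hQ₁
  obtain ⟨K, hK⟩ := exists_cusps hp hpM hA R₁ (Subgroup.map_mono inf_le_left)
  obtain ⟨T⟩ := exists_thickness hp hpM hA hp2 hq3 hζ Q₁ hϖ₁ hQ₁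
  have hPd : ∀ P : Place Qbar (modularFunctionFieldBar MP), P.deg = 1 :=
    (coordData_chart D.chartFin).deg_one
  have hη0 : η ≠ 0 := fun h => by rw [h, map_zero] at hη1; exact zero_ne_one hη1
  have hdivs : ∀ {z : JZero MP} {f : modularFunctionFieldBar MP}, IsClassFun p z f →
      ∀ P : Place Qbar (modularFunctionFieldBar MP), (p : ℤ) ∣ P.ord f :=
    fun {z f} h P => by
      obtain ⟨-, Z, -, hord⟩ := h
      exact hord P ▸ dvd_mul_right _ _
  -- the conclusion from a rational class function of `zP` with residual orders divisible by `p`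
  have finish : ∀ (R : RatField D.toBadBase) (f : modularFunctionFieldBar MP) (H : Subgroup GalQ),
      IsClassFun p zP f → (f : LaurentSeries Qbar).leadingCoeff = 1 →
      (∀ s ∈ H, arithmeticRingAut (modularFunctionFieldFull MP) s f = f) → f ∈ R.FK →
      (∀ (i : Fin 2) (n : ℤ), R.HasOrd i f n →
        ∀ x : Place (ResidueField A) (modularFunctionFieldFullC (ResidueField A) M), (p : ℤ) ∣ x.ord (R.lred i f n)) →
      W.IsResiduallyModularOfLevel p M := by
    intro R f H hf hlead hfix hfK hdvd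
    obtain ⟨i, hi⟩ := exists_branch_not_pow hp hpM hA hf hresP R
    obtain ⟨n, hn⟩ := R.exists_hasOrd (i := i) hfK hf.1
    refine isResiduallyModularOfLevel_of_residual h29 W hΔ hp hpM hA
      (S ∪ (MP).primeFactors ∪ {2}) (f := f) (fun l hl hlS _ => ?_) i hn.1 hn.2 (hdvd i n hn)
      (hi n hn)
    simp only [Finset.mem_union, Finset.mem_singleton, not_or] at hlS
    obtain ⟨g, hg, -, -, e⟩ := exists_heckeFun_eq hp.ne_zero hl hlS.2
      (fun hd => hlS.1.2 (Nat.mem_primeFactors.mpr ⟨hl, hd, NeZero.ne _⟩)) H hf hlead hfix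
      (hecke zP (Or.inl rfl) ⟨l, hl⟩ hlS.1.1)
    exact ⟨g, hg, e⟩
  have hmemFK : ∀ {H : Subgroup GalQ} {R : RatField D.toBadBase}, R.gal = H.map galA →
      ∀ {x : modularFunctionFieldBar MP},
        (∀ s ∈ H, arithmeticRingAut (modularFunctionFieldFull MP) s x = x) → x ∈ R.FK :=
    fun {H R} hR {x} h => (R.mem_iff x).mpr fun τ hτ => by
      rw [hR] at hτ
      obtain ⟨s, hs, rfl⟩ := Subgroup.mem_map.mp hτ
      exact h s hs
  rcases KummerUnit.exists_break hp2 hA hζ hη1 hη with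
    hfix | ⟨σ, w, γ, hσI, hσζ, hw, hγ, hσw, hwfix⟩
  · -- the tame case
    obtain ⟨f, hf, hlead, hffix⟩ := exists_fixed_classFun hp.ne_zero (tameGrp A ζ) hzP
      fun s hs => hP1 s (WildConsts.mem_wildGrp.mpr
        ⟨WildConsts.mem_tameGrp.mp hs, hfix s hs.1 (WildConsts.mem_tameGrp.mp hs).2⟩)
    exact finish R₁ f (tameGrp A ζ) hf hlead hffix (hmemFK rfl hffix) fun i n hn x =>
      dvd_ord_lred_of_fixed hfin hinf K T (hmemFK rfl hffix) hf.1 (hdivs hf)
        (exists_roots hp hpM hA R₁ rfl K hK hℓ hℓ2 hℓN hℓd hf hlead hffix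
          (hecke zP (Or.inl rfl) ⟨ℓ, hℓ⟩ hℓS)) i hn x
  -- the wild case
  have hσ : σ ∈ tameGrp A ζ := WildConsts.mem_tameGrp.mpr ⟨hσI, hσζ⟩
  have hwfix' : ∀ s ∈ wildGrp A ζ η, s w = w := fun s hs => by
    obtain ⟨⟨h1, h2⟩, h3⟩ := WildConsts.mem_wildGrp.mp hs
    exact hwfix s h1 h2 h3
  obtain ⟨Q₂, hϖ₂, hQ₂⟩ := exists_wildConsts hA hζ hη1 hη hw hwfix'
  have hle : wildGrp A ζ η ≤ A.inertiaSubgroupIn ℚ := WildConsts.wildGrp_le_inertia
  set R := LL.Mazur.ratField hp hpM hA (H := wildGrp A ζ η) hle Q₂ hQ₂ with hR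
  obtain ⟨Wext, hWσ⟩ := exists_wildExt hp hp2 hpM hA hζ hη1 hη hσ hw hγ hσw hwfix' R₁ R rfl rfl
    hϖ₁ hϖ₂ Q₂ hQ₂ (fun x hx i => by
      fin_cases i
      · exact LL.Mazur.coe_mem_serField Q₂ hQ₂ hx
      · show BAD.Modular.emb M hp hpM 1 x ∈ _
        rw [LL.Mazur.emb_one_eq]
        refine LL.Mazur.coe_mem_serField Q₂ hQ₂ (LL.Mazur.mem_fixF_galImg.mpr fun s hs => ?_)
        rw [LL.Mazur.smul_wField, LL.Mazur.mem_fixF_galImg.mp hx s hs])
  obtain ⟨f, hf, hlead, hffix⟩ := exists_fixed_classFun hp.ne_zero (wildGrp A ζ η) hzP hP1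
  obtain ⟨q₀, hq₀, hq₀lead, hq₀fix⟩ := exists_fixed_classFun hp.ne_zero (tameGrp A ζ) hzQ hQ1
  have hq₀K : q₀ ∈ R₁.FK := hmemFK rfl hq₀fix
  -- normalise the function of `zQ`
  have hcusp : ∃ x : Fin 2 → Place (ResidueField A) (modularFunctionFieldFullC (ResidueField A) M),
      ∀ b, IsSmoothPt D.chartInf (b, x b) := ⟨K.x, K.smooth⟩
  obtain ⟨xc, hxc⟩ := hcusp
  obtain ⟨G, hGK, hG0, hqO, hqred⟩ := exists_pow_redOne hinf hxc hp.ne_zero hq₀K hq₀.1
    (fun b => by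
      obtain ⟨n, hn⟩ := R₁.exists_hasOrd (i := b) hq₀K hq₀.1
      obtain ⟨r, hrK, hr⟩ := exists_roots hp hpM hA R₁ rfl K hK hℓ hℓ2 hℓN hℓd hq₀ hq₀lead hq₀fix
        (hecke zQ (Or.inr rfl) ⟨ℓ, hℓ⟩ hℓS) b
      obtain ⟨m, rfl⟩ := dvd_hasOrd_of_lead hinf K b hq₀K hq₀.1 (hdivs hq₀) hrK hr hn
      obtain ⟨a, e, he⟩ := redIsPow_of_hasPowRes hp hpM hA hq₀ hresQ b
        (R₁.ϖ ^ ((p : ℤ) * m))⁻¹ hn.1 hn.2
      obtain ⟨a', ha'⟩ := IsAlgClosed.exists_pow_nat_eq a hp.pos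
      exact ⟨m, a' • e, hn, by rw [RatField.lred, he, _root_.smul_pow, ha']⟩)
  set q := q₀ * G ^ p with hqdef
  have hqK : q ∈ R₁.FK := mul_mem hq₀K (pow_mem hGK p)
  have hq : IsClassFun p zQ q := by
    simpa using hq₀.mul ((isClassFun_zero_iff hp.ne_zero).mpr ⟨G, hG0, rfl⟩)
  have hfix₁ : ∀ {x : modularFunctionFieldBar MP}, x ∈ R₁.FK → ∀ s ∈ tameGrp A ζ,
      arithmeticRingAut (modularFunctionFieldFull MP) s x = x := fun {x} hx s hs =>
    (R₁.mem_iff x).mp hx _ (Subgroup.mem_map_of_mem galA hs)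
  -- the image of `f` under `σ`
  obtain ⟨c, hc⟩ := hσP σ hσ
  set f' := arithmeticRingAut (modularFunctionFieldFull MP) σ f with hf'def
  have hf' : IsClassFun p (zP + c • zQ) f' := hc ▸ hf.galois σ
  obtain ⟨g, hg, hgeq⟩ := IsClassFun.unique hp.ne_zero (hf.mul (hq.pow c)) hf'
  have hGl : ∀ s ∈ tameGrp A ζ, s (fieldLead MP G) = fieldLead MP G := fun s hs => by
    rw [← fieldLead_arith, hfix₁ hGK s hs]
  have hgl : ∀ s ∈ wildGrp A ζ η, s (fieldLead MP g) = fieldLead MP g := by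
    have h1 := congrArg (fieldLead MP) hgeq
    rw [hf'def, fieldLead_arith, map_mul, map_mul, map_pow, map_pow,
      show fieldLead MP f = 1 from hlead, map_one, one_mul, hqdef, map_mul, map_pow,
      show fieldLead MP q₀ = 1 from hq₀lead, one_mul, ← pow_mul, mul_comm p, pow_mul,
      ← mul_pow] at h1
    obtain ⟨j, -, hj⟩ := hζ.eq_pow_of_pow_eq_one h1.symm
    intro s hs
    have hst : s ∈ tameGrp A ζ := WildConsts.wildGrp_le hs
    have hne : fieldLead MP G ^ c ≠ 0 := pow_ne_zero _ (fieldLead_ne_zero hG0)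
    rw [show fieldLead MP g = ζ ^ j / fieldLead MP G ^ c by rw [hj, mul_div_cancel_left₀ _ hne],
      map_div₀, map_pow, map_pow, (WildConsts.mem_tameGrp.mp hst).2, hGl s hst]
  have hgfix : ∀ s ∈ wildGrp A ζ η, arithmeticRingAut (modularFunctionFieldFull MP) s g = g := by
    intro s hs
    have hst : s ∈ tameGrp A ζ := WildConsts.wildGrp_le hs
    have h1 : arithmeticRingAut (modularFunctionFieldFull MP) s f' = f' := by
      rw [hf'def, ← arith_mul, show s * σ = σ * (σ⁻¹ * s * σ) by group, arith_mul,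
        hffix _ (WildConsts.conj_mem hζ hη0 hη hσ hs)]
    have h2 := congrArg (arithmeticRingAut (modularFunctionFieldFull MP) s) hgeq
    rw [h1, map_mul, map_mul, map_pow, map_pow, hffix s hs, hfix₁ hqK s hst] at h2
    refine eq_of_pow_eq_field hp.ne_zero hg ?_ (by rw [fieldLead_arith, hgl s hs])
    exact mul_left_cancel₀ (mul_ne_zero hf.1 (pow_ne_zero _ hq.1)) (h2.symm.trans hgeq)
  have htw : Twisted Wext f q g c :=
    { f_mem := hmemFK rfl hffix, f_ne := hf.1, q_mem := hqK, q_mem_O := hqO, q_red := hqred,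
      b_mem := hmemFK rfl hgfix, b_ne := hg,
      eq := by
        rw [hWσ]
        exact hgeq }
  exact finish R f (wildGrp A ζ η) hf hlead hffix (hmemFK rfl hffix) fun i n hn x =>
    dvd_ord_lred_of_twisted htw hfin hinf hPd K T (hdivs hf) (hdivs hq)
      (exists_roots hp hpM hA R rfl K hK hℓ hℓ2 hℓN hℓd hf hlead hffix
        (hecke zP (Or.inl rfl) ⟨ℓ, hℓ⟩ hℓS)) i hn x

end Fermat.Agent.LLp
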