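import Fermat.Agent.LLp.Core.Classes
import Fermat.Agent.LLp.Core.Kummer
import Fermat.Agent.LLp.Assembly
import Fermat.Agent.BAD.Ordinary.ModExpansions
import Fermat.Agent.BAD.Ordinary.NewPart

/-!
# The case killed by both pushforwards

The points of `E[p]` with power residues in `J₀(M p)` form a subgroup modulo which inertia acts
trivially and on which it acts cyclotomically, so the shape is a Kummer plane with the
cyclotomic line there.
-/

set_option autoImplicit false
set_option linter.style.haveILetI false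
set_option maxHeartbeats 800000
set_option synthInstance.maxHeartbeats 200000

noncomputable section

open AlgebraicCurve ModularCurve IsLocalRing Fermat.Agent.HK.Corr
open Fermat.Agent.Galois (Qbar GalQ)
open Fermat.Agent.ECFormal (Tors)

namespace Fermat.Agent.LLp

variable {M p : ℕ} [NeZero M] [NeZero p]

/-- A class killed by a pushforward has a representative with principal pushforward. -/
theorem isPrincipal_of_pushPic0_eq_zero {K F F' : Type*} [Field K] [Field F] [Field F']
    [Algebra K F] [Algebra K F'] [HasPrincipalDivisors K F] [HasPrincipalDivisors K F']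
    {φ : F →ₐ[K] F'} {hφ : φ.toRingHom.IsIntegral} {hfin : FiniteAlong K φ}
    {hN : NormFormulaAlong K φ hfin} (D : Divisor.degZero (K := K) (F := F'))
    (h : pushPic0 φ hφ hfin hN (Pic0.mk D) = 0) :
    Divisor.IsPrincipal (Divisor.pushforwardAlong φ hφ (D : Divisor K F')) := by
  rw [pushPic0_mk] at h
  have h' := (QuotientAddGroup.eq_zero_iff _).mp h
  rw [AddSubgroup.mem_addSubgroupOf] at h'
  exact Divisor.mem_principal.mp h'

/-- **The case killed by both pushforwards.** -/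
theorem stmtPushTrivial (h29 : CondLevel.ResidualAttachment) : StmtPushTrivial := by
  intro W p _ _ hp2 hΔ _ hshape M _ _ hpM hq3 S ι hι hA hB hnonEis
  have hp : p.Prime := Fact.out
  obtain ⟨A, hAp⟩ := Galois.exists_liesOverPrime (L := Qbar) hp
  haveI := Galois.place_residueField_isAlgClosed A
  haveI := Galois.place_charP_residueField hAp hp
  haveI := MF.Coeff.isFunctionField_laurentBaseChange Qbar (M * p)
  haveI := hasPrincipalDivisors_level Qbar M
  haveI := hasPrincipalDivisors_level Qbar (M * p)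
  set D := BAD.Modular.curve hp hpM hAp
  have hkill : ∀ x : Tors W p, (p : ℤ) • ι x = 0 := fun x => by
    rw [← map_zsmul, show (p : ℤ) • x = 0 from Subtype.ext x.2, map_zero]
  set K : Submodule (ZMod p) (Tors W p) :=
    AddSubgroup.toZModSubmodule p ((D.powResPart hp.pos).comap ι) with hK
  have hmemK : ∀ x, x ∈ K ↔ D.HasPowRes p (ι x) := fun _ => Iff.rfl
  have hsub : ∀ σ ∈ A.inertiaSubgroupIn ℚ, ∀ x : Tors W p, σ • x - x ∈ K := fun σ hσ x => by
    rw [hmemK, map_sub, hι.galois, galois_smul_pic0_def]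
    exact BAD.BadCurve.hasPowRes_sub (BAD.Modular.curve_sym_inertia hp hpM hAp hσ) hp.pos
      (by rw [← natCast_zsmul]; exact hkill x)
  have hcyc : ∀ σ ∈ A.inertiaSubgroupIn ℚ, ∀ (z : Qbar) (n : ℕ), IsPrimitiveRoot z p →
      σ z = z ^ n → ∀ x ∈ K, σ • x = n • x := by
    intro σ hσ z n hz hzn x hx
    refine hι.inj ?_
    rw [hι.galois, map_nsmul, galois_smul_pic0_def]
    obtain ⟨Z, hZ⟩ := Pic0.mk_surjective (ι x)
    have h0 := hA x
    have h1 := hB x
    rw [← hZ] at h0 h1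
    exact (BAD.Ordinary.modExpansions hp hpM hAp).smul_eq_nsmul_of_hasPowRes hAp hσ
      (g := arithmeticGalois (modularFunctionFieldFull (M * p)) σ)
      (fun i f => BAD.Modular.emb_arith M hp hpM σ i f) (fun _ => rfl)
      (BAD.Modular.curve_sym_inertia hp hpM hAp hσ).1
      (ζ := (hz.isUnit hp.ne_zero).unit) (IsPrimitiveRoot.coe_units_iff.mp hz) hzn
      ((hmemK x).mp hx)
      ⟨Z, hZ, Fin.forall_fin_two.mpr
        ⟨isPrincipal_of_pushPic0_eq_zero Z h0, isPrincipal_of_pushPic0_eq_zero Z h1⟩⟩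
  obtain ⟨P, Q, ζ, η, hζ, hη1, hQK, hPK, h⟩ :=
    kummer_of_powRes hΔ hp2 hAp (hshape A hAp) K hsub hcyc
  have hη0 : η ≠ 0 := fun e => by rw [e, map_zero] at hη1; exact zero_ne_one hη1
  have htame : ∀ σ ∈ tameGrp A ζ, σ • ι Q = ι Q ∧
      ∃ c : ZMod p, σ η = ζ ^ c.val * η ∧ σ • ι P = ι P + c.val • ι Q := by
    intro σ hσ
    obtain ⟨hσI, hσζ⟩ := WildConsts.mem_tameGrp.mp hσ
    obtain ⟨-, b, c, hb, hc, hQ, hP⟩ := h σ hσI
    rw [hσζ] at hb
    have hb1 : b.val = 1 := hζ.pow_inj b.val_lt hp.one_lt (by rw [pow_one]; exact hb.symm)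
    rw [hb1, one_smul] at hQ
    exact ⟨by rw [← hι.galois, hQ], c, hc, by rw [← hι.galois, hP, map_add, map_nsmul]⟩
  obtain ⟨ℓ, hℓ, hℓ2, hℓS, hℓN, -, hne⟩ := hnonEis
  refine isResiduallyModularOfLevel_of_kummer hp hpM hAp h29 W hΔ hp2 hq3 S (zP := ι P)
    (zQ := ι Q) (hkill P) (hkill Q) ?_
    ⟨ℓ, hℓ, hℓ2, hℓS, hℓN, fun hd => hne ?_⟩ hζ hη1 (fun σ hσ => (h σ hσ).1) (fun σ hσ => ?_)
    (fun σ hσ => (htame σ hσ).1) (fun σ hσ => ?_) hQK hPK
  · rintro z (rfl | rfl) l hl <;> exact hι.hecke l hl _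
  · have h0 := (ZMod.intCast_zmod_eq_zero_iff_dvd _ p).mpr hd
    push_cast at h0
    exact (sub_eq_zero.mp h0).symm
  · obtain ⟨hσ', hση⟩ := WildConsts.mem_wildGrp.mp hσ
    obtain ⟨-, c, hc, hP⟩ := htame σ (WildConsts.mem_tameGrp.mpr hσ')
    rw [hση] at hc
    have hc0 : c.val = 0 := hζ.pow_inj c.val_lt hp.pos (by
      rw [pow_zero]; exact mul_right_cancel₀ hη0 (hc.symm.trans (one_mul η).symm))
    rw [hP, hc0, zero_nsmul, add_zero]
  · obtain ⟨-, c, -, hP⟩ := htame σ hσ
    exact ⟨c.val, hP⟩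

end Fermat.Agent.LLp
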