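import Fermat.Agent.LLp.ShapeDefs
import Fermat.Agent.ECFormal.Kernel
import Fermat.Agent.ECFormal.InertiaFixed
import Fermat.Agent.S13.Tame
import Mathlib.Algebra.Module.ZMod

/-!
# A peu ramifiée plane with a subgroup on which inertia acts cyclotomically

If inertia acts trivially modulo a stable subgroup `K` of `E[p]` and through the cyclotomic
character on `K`, the shape is the Kummer one, with the cyclotomic line in `K` and the other
basis vector outside.
-/

set_option autoImplicit false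

noncomputable section

namespace Fermat.Agent.LLp

open Fermat.Agent.Galois (Qbar GalQ)
open Fermat.Agent.ECFormal (Tors valuation_eq_zpow_of_fixed valuation_natPrime_ne_zero
  valuation_natPrime_lt_one)

variable {W : WeierstrassCurve ℤ} {p : ℕ} [Fact p.Prime] {A : ValuationSubring Qbar}

/-- Inertia moves the `p`-th roots of unity. -/
theorem exists_inertia_apply_ne (hp2 : p ≠ 2) (hA : A.LiesOverPrime p) {ζ : Qbar}
    (hζ : IsPrimitiveRoot ζ p) : ∃ σ ∈ A.inertiaSubgroupIn ℚ, σ ζ ≠ ζ := by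
  have hp : p.Prime := Fact.out
  by_contra! hfix
  have h2 := hp.two_le
  have hπ0 : 0 < A.valuation (p : Qbar) :=
    zero_lt_iff.mpr (valuation_natPrime_ne_zero hp A)
  have hπ1 := valuation_natPrime_lt_one hA
  obtain ⟨m, hm⟩ := valuation_eq_zpow_of_fixed hA hp (x := ζ - 1)
    (sub_ne_zero.mpr (hζ.ne_one hp.one_lt)) fun σ hσ => by rw [map_sub, map_one, hfix σ hσ]
  have h := S13.val_zeta_sub_one_pow A.valuation hp hζ
  rw [hm, ← zpow_natCast, ← zpow_mul] at h
  have h1 : m * ((p - 1 : ℕ) : ℤ) = 1 := by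
    refine zpow_right_injective₀ hπ0 hπ1.ne ?_
    dsimp only
    rw [h, zpow_one]
  rcases Int.mul_eq_one_iff_eq_one_or_neg_one.mp h1 with ⟨-, h3⟩ | ⟨-, h3⟩ <;> omega

/-- A line of the plane. -/
theorem exists_proper_submodule (hΔ : W.Δ ≠ 0) :
    ∃ N : Submodule (ZMod p) (Tors W p), N ≠ ⊥ ∧ N ≠ ⊤ := by
  have hp : p.Prime := Fact.out
  have hcard : Nat.card (Tors W p) = p ^ 2 := ECFormal.natCard_tors W hΔ hp.ne_zero
  have hfin : Finite (Tors W p) :=
    Nat.finite_of_card_ne_zero (by rw [hcard]; exact pow_ne_zero _ hp.ne_zero)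
  have : Nontrivial (Tors W p) := by
    refine Finite.one_lt_card_iff_nontrivial.mp ?_
    rw [hcard]
    exact Nat.one_lt_pow two_ne_zero hp.one_lt
  obtain ⟨x, hx⟩ := exists_ne (0 : Tors W p)
  refine ⟨Submodule.span (ZMod p) {x}, fun h => hx (Submodule.span_singleton_eq_bot.mp h),
    fun h => ?_⟩
  have hle : Nat.card (Tors W p) ≤ Nat.card (ZMod p) :=
    Nat.card_le_card_of_surjective (fun c : ZMod p => c • x)
      fun y => Submodule.mem_span_singleton.mp (h ▸ Submodule.mem_top)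
  rw [hcard, Nat.card_zmod, sq] at hle
  have := Nat.mul_lt_mul_of_pos_left hp.one_lt hp.pos
  omega

/-- The Kummer data with the cyclotomic line in `K` and the other vector outside. -/
theorem kummer_of_powRes (hΔ : W.Δ ≠ 0) (hp2 : p ≠ 2) (hA : A.LiesOverPrime p)
    (hshape : InertiaIrreducible W p A ∨ HasUnitKummer W p A)
    (K : Submodule (ZMod p) (Tors W p))
    (hsub : ∀ σ ∈ A.inertiaSubgroupIn ℚ, ∀ x : Tors W p, σ • x - x ∈ K)
    (hcyc : ∀ σ ∈ A.inertiaSubgroupIn ℚ, ∀ (z : Qbar) (n : ℕ), IsPrimitiveRoot z p →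
      σ z = z ^ n → ∀ x ∈ K, σ • x = n • x) :
    ∃ (P Q : Tors W p) (ζ η : Qbar), IsPrimitiveRoot ζ p ∧ A.valuation η = 1 ∧
      Q ∈ K ∧ P ∉ K ∧
      ∀ σ ∈ A.inertiaSubgroupIn ℚ, σ (η ^ p) = η ^ p ∧
        ∃ b c : ZMod p, σ ζ = ζ ^ b.val ∧ σ η = ζ ^ c.val * η ∧
          σ • Q = b.val • Q ∧ σ • P = P + c.val • Q := by
  have hp : p.Prime := Fact.out
  rcases hshape with hirr | ⟨P, Q, ζ, η, hζ, hη, hbij, h⟩
  · exfalso
    have := NeZero.mk hp.ne_zero
    obtain ⟨z, hz⟩ := HasEnoughRootsOfUnity.exists_primitiveRoot Qbar p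
    obtain ⟨N, hN0, hN1⟩ := exists_proper_submodule (p := p) hΔ
    have hKst : ∀ σ ∈ A.inertiaSubgroupIn ℚ, ∀ x ∈ K, σ • x ∈ K := fun σ hσ x hx => by
      simpa using add_mem (hsub σ hσ x) hx
    rcases hirr K hKst with hK | hK
    · rcases hirr N (fun σ hσ x hx => by
        have h1 := hsub σ hσ x
        rw [hK, Submodule.mem_bot, sub_eq_zero] at h1
        rwa [h1]) with h' | h'
      exacts [hN0 h', hN1 h']
    · rcases hirr N (fun σ hσ x hx => by
        obtain ⟨n, -, hn⟩ := hz.eq_pow_of_pow_eq_one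
          (show σ z ^ p = 1 by rw [← map_pow, hz.pow_eq_one, map_one])
        rw [hcyc σ hσ z n hz hn.symm x (hK ▸ Submodule.mem_top)]
        exact N.toAddSubgroup.nsmul_mem hx n) with h' | h'
      exacts [hN0 h', hN1 h']
  obtain ⟨σ, hσ, hσζ⟩ := exists_inertia_apply_ne hp2 hA hζ
  obtain ⟨-, b, c, hb, -, hQ, hP⟩ := h σ hσ
  have hb1 : b ≠ 1 := fun h1 => hσζ (by rw [hb, h1, ZMod.val_one, pow_one])
  have hQK : Q ∈ K := by
    have h1 := hsub σ hσ Q
    rw [hQ, ← Nat.cast_smul_eq_nsmul (ZMod p), ZMod.natCast_zmod_val,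
      show b • Q - Q = (b - 1) • Q by rw [sub_smul, one_smul]] at h1
    have h2 := K.smul_mem (b - 1)⁻¹ h1
    rwa [smul_smul, inv_mul_cancel₀ (sub_ne_zero.mpr hb1), one_smul] at h2
  refine ⟨P, Q, ζ, η, hζ, hη, hQK, fun hPK => hb1 ?_, h⟩
  have h1 := hcyc σ hσ ζ b.val hζ hb P hPK
  rw [hP] at h1
  have h2 := hbij.1 (a₁ := ((1 : ZMod p), c)) (a₂ := (b, 0)) (by
    simp only [ZMod.val_one, ZMod.val_zero, one_smul, zero_smul, add_zero]
    exact h1)
  exact (Prod.ext_iff.mp h2).1.symm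

end Fermat.Agent.LLp
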